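/-
Programme S33, brick 768 = O1a (helper75): **Hopf orders in `Maps_I(C, Ω)`: definitions.**

Setting (report 1237, (O-3)): `W` a ring (in the application a DVR with uniformiser `p`, unramified),
`Ω ⊇ W` a field with a valuation subring `P ⊇ W`, `I` a group acting on `Ω` by ring automorphisms
fixing `W` and stabilising `P`; `C` an additive group with an action `act : I →* AddMonoid.End C`
(EXPLICIT homomorphism, so that stable subgroups and quotients need no instance juggling).

* `Base W p P I`      : the standing hypotheses on `(W, p, Ω, P, I)` (a `Prop` structure);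
* `HopfOrder W P act` : a `W`-subalgebra `H ⊆ Maps(C, Ω)`, finitely generated over `W`, of
  `I`-equivariant `P`-valued functions, separating the points of `C`, closed under
  `h ↦ ((x, y) ↦ h (x + y))` (`Δ`-closed);
* `HopfOrder.IsLocal` : `h c - h 0 ∈ 𝔪_P` for all `h`, `c`;
* `actSub`, `actQuot` : the action on a stable subgroup / on the quotient by a stable subgroup;
* `HopfOrder.restrict`, `IsLocal.restrict` : **O1a (b)** restriction to a stable subgroup;
* `HopfOrder.invCarrier` : the translation-invariant functions as a subalgebra of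
  `Maps(C ⧸ C₁, Ω)` (for O1b), with the easy fields.
-/
import Mathlib

set_option autoImplicit false
set_option linter.style.haveILetI false

namespace Fermat.Agent.S33P.HopfOrder75

/-! ### The base -/

/-- Standing hypotheses: `W ⊆ P ⊆ Ω`, `I` acts on `Ω` fixing `W`, stabilising `P`, trivially on the
residue field of `P`; the `I`-fixed elements of `Ω` are the fractions `w / p ^ n`, those of `P` are
the elements of `W`; `p` generates `𝔪_P ∩ W` (unramified base). -/
structure Base (W : Type*) [CommRing W] (p : ℕ) {Ω : Type*} [Field Ω] [Algebra W Ω]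
    (P : ValuationSubring Ω) (I : Type*) [Group I] [MulSemiringAction I Ω] : Prop where
  inj : Function.Injective (algebraMap W Ω)
  le : ∀ w : W, algebraMap W Ω w ∈ P
  fixes : ∀ (τ : I) (w : W), τ • algebraMap W Ω w = algebraMap W Ω w
  stable : ∀ (τ : I) (a : Ω), a ∈ P → τ • a ∈ P
  fixed : ∀ a : Ω, (∀ τ : I, τ • a = a) → ∃ (w : W) (n : ℕ), (p : Ω) ^ n * a = algebraMap W Ω w
  fixedP : ∀ a : Ω, a ∈ P → (∀ τ : I, τ • a = a) → ∃ w : W, algebraMap W Ω w = a
  unram : ∀ w : W, algebraMap W Ω w ∈ P.nonunits → ∃ w' : W, w = (p : W) * w'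
  p_mem : (p : Ω) ∈ P.nonunits
  p_ne_zero : (p : Ω) ≠ 0
  residues : ∀ (τ : I) (a : Ω), a ∈ P → τ • a - a ∈ P.nonunits

/-! ### Hopf orders -/

section Defs

variable (W : Type*) [CommRing W] {Ω : Type*} [Field Ω] [Algebra W Ω] (P : ValuationSubring Ω)
  {I : Type*} [Group I] [MulSemiringAction I Ω] {C : Type*} [AddCommGroup C]

/-- A **Hopf order** on the `I`-module `C`: a `W`-subalgebra of `Maps(C, Ω)`, finitely generated as a
`W`-module, consisting of `I`-equivariant `P`-valued functions, separating the points of `C` and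
`Δ`-closed. -/
structure HopfOrder (act : I →* AddMonoid.End C) where
  carrier : Subalgebra W (C → Ω)
  fg : (Subalgebra.toSubmodule carrier).FG
  mem_P : ∀ h ∈ carrier, ∀ c : C, h c ∈ P
  equivariant : ∀ h ∈ carrier, ∀ (τ : I) (c : C), h (act τ c) = τ • h c
  separates : ∀ c c' : C, c ≠ c' → ∃ h ∈ carrier, h c ≠ h c'
  comul : ∀ h ∈ carrier, ∃ (n : ℕ) (a b : Fin n → C → Ω), (∀ i, a i ∈ carrier) ∧
    (∀ i, b i ∈ carrier) ∧ ∀ x y : C, h (x + y) = ∑ i, a i x * b i y

variable {W P}

/-- A Hopf order is **local** (connected) if every function is constant modulo `𝔪_P`. -/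
def HopfOrder.IsLocal {act : I →* AddMonoid.End C} (H : HopfOrder W P act) : Prop :=
  ∀ h ∈ H.carrier, ∀ c : C, h c - h 0 ∈ P.nonunits

end Defs

/-! ### Stable subgroups and quotients -/

section Actions

variable {I : Type*} [Group I] {C : Type*} [AddCommGroup C]

/-- A subgroup stable under the action. -/
def IsStable (act : I →* AddMonoid.End C) (C₁ : AddSubgroup C) : Prop :=
  ∀ (τ : I), ∀ c ∈ C₁, act τ c ∈ C₁

/-- The action on a stable subgroup. -/
def actSub (act : I →* AddMonoid.End C) (C₁ : AddSubgroup C) (h : IsStable act C₁) :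
    I →* AddMonoid.End C₁ where
  toFun τ := ((act τ).comp C₁.subtype).codRestrict C₁ (fun c => h τ c c.2)
  map_one' := by
    refine AddMonoidHom.ext fun c => Subtype.ext ?_
    show act 1 (c : C) = c
    rw [map_one]
    rfl
  map_mul' σ τ := by
    refine AddMonoidHom.ext fun c => Subtype.ext ?_
    show act (σ * τ) (c : C) = act σ (act τ (c : C))
    rw [map_mul]
    rfl

@[simp] theorem actSub_apply (act : I →* AddMonoid.End C) (C₁ : AddSubgroup C)
    (h : IsStable act C₁) (τ : I) (c : C₁) : ((actSub act C₁ h τ c : C₁) : C) = act τ c := rfl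

/-- The action on the quotient by a stable subgroup. -/
def actQuot (act : I →* AddMonoid.End C) (C₁ : AddSubgroup C) (h : IsStable act C₁) :
    I →* AddMonoid.End (C ⧸ C₁) where
  toFun τ := QuotientAddGroup.map C₁ C₁ (act τ) (fun c hc => h τ c hc)
  map_one' := by
    refine AddMonoidHom.ext fun x => ?_
    obtain ⟨c, rfl⟩ := QuotientAddGroup.mk_surjective x
    show (QuotientAddGroup.mk (act 1 c) : C ⧸ C₁) = QuotientAddGroup.mk c
    rw [map_one]
    rfl
  map_mul' σ τ := by
    refine AddMonoidHom.ext fun x => ?_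
    obtain ⟨c, rfl⟩ := QuotientAddGroup.mk_surjective x
    show (QuotientAddGroup.mk (act (σ * τ) c) : C ⧸ C₁) = QuotientAddGroup.mk (act σ (act τ c))
    rw [map_mul]
    rfl

@[simp] theorem actQuot_mk (act : I →* AddMonoid.End C) (C₁ : AddSubgroup C)
    (h : IsStable act C₁) (τ : I) (c : C) :
    actQuot act C₁ h τ (QuotientAddGroup.mk c) = QuotientAddGroup.mk (act τ c) := rfl

end Actions

/-! ### O1a (b): restriction to a stable subgroup -/

section Restrict

variable {W : Type*} [CommRing W] {Ω : Type*} [Field Ω] [Algebra W Ω] {P : ValuationSubring Ω}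
  {I : Type*} [Group I] [MulSemiringAction I Ω] {C : Type*} [AddCommGroup C]
  {act : I →* AddMonoid.End C}

/-- Restriction of functions to a subgroup, as an algebra homomorphism. -/
def resHom (W : Type*) [CommRing W] (Ω : Type*) [Field Ω] [Algebra W Ω] {C : Type*}
    [AddCommGroup C] (C₁ : AddSubgroup C) : (C → Ω) →ₐ[W] (C₁ → Ω) where
  toFun f := fun c => f c
  map_one' := rfl
  map_mul' _ _ := rfl
  map_zero' := rfl
  map_add' _ _ := rfl
  commutes' _ := rfl

@[simp] theorem resHom_apply (C₁ : AddSubgroup C) (f : C → Ω) (c : C₁) :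
    resHom W Ω C₁ f c = f c := rfl

/-- **O1a (b).** The restriction of a Hopf order to a stable subgroup. -/
def HopfOrder.restrict (H : HopfOrder W P act) (C₁ : AddSubgroup C) (h : IsStable act C₁) :
    HopfOrder W P (actSub act C₁ h) where
  carrier := H.carrier.map (resHom W Ω C₁)
  fg := by
    have : Subalgebra.toSubmodule (H.carrier.map (resHom W Ω C₁)) =
        (Subalgebra.toSubmodule H.carrier).map (resHom W Ω C₁).toLinearMap := by
      ext f
      simp [Subalgebra.mem_map]
    rw [this]
    exact H.fg.map _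
  mem_P := by
    rintro _ ⟨f, hf, rfl⟩ c
    exact H.mem_P f hf c
  equivariant := by
    rintro _ ⟨f, hf, rfl⟩ τ c
    exact H.equivariant f hf τ c
  separates := by
    intro c c' hcc
    obtain ⟨f, hf, hne⟩ := H.separates c c' (fun e => hcc (Subtype.ext e))
    exact ⟨_, ⟨f, hf, rfl⟩, hne⟩
  comul := by
    rintro _ ⟨f, hf, rfl⟩
    obtain ⟨n, a, b, ha, hb, hab⟩ := H.comul f hf
    exact ⟨n, fun i => resHom W Ω C₁ (a i), fun i => resHom W Ω C₁ (b i),
      fun i => ⟨a i, ha i, rfl⟩, fun i => ⟨b i, hb i, rfl⟩, fun x y => hab x y⟩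

theorem HopfOrder.mem_restrict {H : HopfOrder W P act} {C₁ : AddSubgroup C} {h : IsStable act C₁}
    {g : C₁ → Ω} : g ∈ (H.restrict C₁ h).carrier ↔ ∃ f ∈ H.carrier, ∀ c : C₁, f c = g c := by
  constructor
  · rintro ⟨f, hf, rfl⟩
    exact ⟨f, hf, fun _ => rfl⟩
  · rintro ⟨f, hf, hfg⟩
    exact ⟨f, hf, funext hfg⟩

/-- The restriction of a local Hopf order is local. -/
theorem HopfOrder.IsLocal.restrict {H : HopfOrder W P act} (hH : H.IsLocal) (C₁ : AddSubgroup C)
    (h : IsStable act C₁) : (H.restrict C₁ h).IsLocal := by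
  rintro _ ⟨f, hf, rfl⟩ c
  exact hH f hf c

end Restrict

/-! ### The translation-invariant functions (for O1b) -/

section Quot

variable {W : Type*} [CommRing W] {Ω : Type*} [Field Ω] [Algebra W Ω] {P : ValuationSubring Ω}
  {I : Type*} [Group I] [MulSemiringAction I Ω] {C : Type*} [AddCommGroup C]
  {act : I →* AddMonoid.End C}

/-- Pull-back of functions along `C → C ⧸ C₁`, as an algebra homomorphism. -/
def pullHom (W : Type*) [CommRing W] (Ω : Type*) [Field Ω] [Algebra W Ω] {C : Type*}
    [AddCommGroup C] (C₁ : AddSubgroup C) : (C ⧸ C₁ → Ω) →ₐ[W] (C → Ω) where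
  toFun f := fun c => f (QuotientAddGroup.mk c)
  map_one' := rfl
  map_mul' _ _ := rfl
  map_zero' := rfl
  map_add' _ _ := rfl
  commutes' _ := rfl

@[simp] theorem pullHom_apply (C₁ : AddSubgroup C) (f : C ⧸ C₁ → Ω) (c : C) :
    pullHom W Ω C₁ f c = f (QuotientAddGroup.mk c) := rfl

theorem pullHom_injective (C₁ : AddSubgroup C) : Function.Injective (pullHom W Ω C₁) := by
  intro f g hfg
  funext x
  obtain ⟨c, rfl⟩ := QuotientAddGroup.mk_surjective x
  exact congrFun hfg c

/-- The functions on `C ⧸ C₁` whose pull-back to `C` lies in `H`: the translation-invariant part of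
`H`, as a subalgebra of `Maps(C ⧸ C₁, Ω)`. -/
def HopfOrder.invCarrier (H : HopfOrder W P act) (C₁ : AddSubgroup C) :
    Subalgebra W (C ⧸ C₁ → Ω) :=
  H.carrier.comap (pullHom W Ω C₁)

theorem HopfOrder.mem_invCarrier {H : HopfOrder W P act} {C₁ : AddSubgroup C} {f : C ⧸ C₁ → Ω} :
    f ∈ H.invCarrier C₁ ↔ (fun c : C => f (QuotientAddGroup.mk c)) ∈ H.carrier := Iff.rfl

/-- A function of `H` invariant under translation by `C₁` descends to `H.invCarrier C₁`. -/
theorem HopfOrder.exists_mem_invCarrier {H : HopfOrder W P act} {C₁ : AddSubgroup C} {h : C → Ω}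
    (hh : h ∈ H.carrier) (hinv : ∀ (x : C), ∀ c ∈ C₁, h (x + c) = h x) :
    ∃ f ∈ H.invCarrier C₁, ∀ c : C, f (QuotientAddGroup.mk c) = h c := by
  classical
  have hwd : ∀ a b : C, QuotientAddGroup.leftRel C₁ a b → h a = h b := by
    intro a b hab
    rw [QuotientAddGroup.leftRel_apply] at hab
    have := hinv a (-a + b) hab
    rw [add_neg_cancel_left] at this
    exact this.symm
  refine ⟨Quotient.lift h hwd, ?_, fun c => rfl⟩
  rw [HopfOrder.mem_invCarrier]
  exact hh

theorem HopfOrder.invCarrier_mem_P (H : HopfOrder W P act) (C₁ : AddSubgroup C) :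
    ∀ f ∈ H.invCarrier C₁, ∀ x : C ⧸ C₁, f x ∈ P := by
  intro f hf x
  obtain ⟨c, rfl⟩ := QuotientAddGroup.mk_surjective x
  exact H.mem_P _ hf c

theorem HopfOrder.invCarrier_equivariant (H : HopfOrder W P act) (C₁ : AddSubgroup C)
    (h : IsStable act C₁) :
    ∀ f ∈ H.invCarrier C₁, ∀ (τ : I) (x : C ⧸ C₁), f (actQuot act C₁ h τ x) = τ • f x := by
  intro f hf τ x
  obtain ⟨c, rfl⟩ := QuotientAddGroup.mk_surjective x
  exact H.equivariant _ hf τ c

theorem HopfOrder.invCarrier_fg [IsNoetherianRing W] (H : HopfOrder W P act)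
    (C₁ : AddSubgroup C) : (Subalgebra.toSubmodule (H.invCarrier C₁)).FG := by
  haveI : Module.Finite W (Subalgebra.toSubmodule H.carrier) :=
    Module.Finite.iff_fg.2 H.fg
  haveI : IsNoetherian W (Subalgebra.toSubmodule H.carrier) := isNoetherian_of_isNoetherianRing_of_finite W _
  -- the invariant part embeds in `H`
  let φ : Subalgebra.toSubmodule (H.invCarrier C₁) →ₗ[W] Subalgebra.toSubmodule H.carrier :=
    { toFun := fun f => ⟨pullHom W Ω C₁ f.1, f.2⟩
      map_add' := fun _ _ => rfl
      map_smul' := fun _ _ => rfl }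
  have hφ : Function.Injective φ := by
    intro f g hfg
    apply Subtype.ext
    apply pullHom_injective (W := W) (Ω := Ω) C₁
    exact congrArg Subtype.val hfg
  haveI : IsNoetherian W (Subalgebra.toSubmodule (H.invCarrier C₁)) :=
    isNoetherian_of_injective φ hφ
  exact Module.Finite.iff_fg.1 (inferInstance : Module.Finite W (Subalgebra.toSubmodule (H.invCarrier C₁)))

theorem HopfOrder.invCarrier_local {H : HopfOrder W P act} (hH : H.IsLocal) (C₁ : AddSubgroup C) :
    ∀ f ∈ H.invCarrier C₁, ∀ x : C ⧸ C₁, f x - f 0 ∈ P.nonunits := by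
  intro f hf x
  obtain ⟨c, rfl⟩ := QuotientAddGroup.mk_surjective x
  exact hH _ hf c

end Quot

end Fermat.Agent.S33P.HopfOrder75
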