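/-
Programme S33, brick 768 = O1a (a) (helper75): **the Hopf order of a finite Hopf algebra acting on its
points.**

* `DeltaIn S h` : `h (x + y) = ∑ i, a i x * b i y` with `a i, b i ∈ S`; closure properties
  (`deltaIn_of_fintype`, `DeltaIn.zero/add/smul/sum`, `deltaIn_span`);
* `HopfOrder.ofEval` : from an algebra map `ev : 𝓗 →ₐ[R₀] (C → Ω)` (evaluation of a module-finite
  `R₀`-algebra `𝓗` at the points `C`), `P`-valued, equivariant, separating, with the `Δ`-property:
  the `W`-span of the image of `ev` is a Hopf order on `C`;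
* `isLocal_ofEval` : it is local iff all points agree with the origin modulo `𝔪_P`;
* `deltaProp_of_conv` : the `Δ`-property of `ev` from a bialgebra structure on `𝓗` when the points
  multiply by convolution (`Mathlib.RingTheory.Bialgebra.Convolution`).
-/
import Mathlib
import Fermat.Agent.S33P.HopfOrder75.Defs

set_option autoImplicit false
set_option linter.unusedSectionVars false

namespace Fermat.Agent.S33P.HopfOrder75

/-! ### The `Δ`-property -/

section Delta

variable {W : Type*} [CommRing W] {Ω : Type*} [Field Ω] [Algebra W Ω] {C : Type*} [AddCommGroup C]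

/-- `h ∘ (+)` is a finite sum of products `a i ⊗ b i` with `a i, b i ∈ S`. -/
def DeltaIn (S : Set (C → Ω)) (h : C → Ω) : Prop :=
  ∃ (n : ℕ) (a b : Fin n → C → Ω), (∀ i, a i ∈ S) ∧ (∀ i, b i ∈ S) ∧
    ∀ x y : C, h (x + y) = ∑ i, a i x * b i y

theorem deltaIn_of_fintype {S : Set (C → Ω)} {h : C → Ω} {ι : Type*} [Fintype ι]
    (a b : ι → C → Ω) (ha : ∀ i, a i ∈ S) (hb : ∀ i, b i ∈ S)
    (hab : ∀ x y : C, h (x + y) = ∑ i, a i x * b i y) : DeltaIn S h := by
  classical
  let e := Fintype.equivFin ι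
  refine ⟨Fintype.card ι, fun j => a (e.symm j), fun j => b (e.symm j), fun j => ha _,
    fun j => hb _, fun x y => ?_⟩
  rw [hab x y]
  exact (Equiv.sum_comp e.symm (fun i => a i x * b i y)).symm

theorem DeltaIn.mono {S T : Set (C → Ω)} (hST : S ⊆ T) {h : C → Ω} (hh : DeltaIn S h) :
    DeltaIn T h := by
  obtain ⟨n, a, b, ha, hb, hab⟩ := hh
  exact ⟨n, a, b, fun i => hST (ha i), fun i => hST (hb i), hab⟩

theorem DeltaIn.zero (S : Set (C → Ω)) : DeltaIn S (0 : C → Ω) :=
  ⟨0, Fin.elim0, Fin.elim0, fun i => i.elim0, fun i => i.elim0, fun x y => by simp⟩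

theorem DeltaIn.add {S : Set (C → Ω)} {h h' : C → Ω} (hh : DeltaIn S h) (hh' : DeltaIn S h') :
    DeltaIn S (h + h') := by
  obtain ⟨n, a, b, ha, hb, hab⟩ := hh
  obtain ⟨n', a', b', ha', hb', hab'⟩ := hh'
  refine deltaIn_of_fintype (ι := Fin n ⊕ Fin n') (Sum.elim a a') (Sum.elim b b') ?_ ?_ ?_
  · rintro (i | i)
    · exact ha i
    · exact ha' i
  · rintro (i | i)
    · exact hb i
    · exact hb' i
  · intro x y
    rw [Fintype.sum_sum_type]
    simp only [Sum.elim_inl, Sum.elim_inr, Pi.add_apply]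
    rw [hab, hab']

theorem DeltaIn.smul {S : Submodule W (C → Ω)} {h : C → Ω} (w : W) (hh : DeltaIn (S : Set _) h) :
    DeltaIn (S : Set (C → Ω)) (w • h) := by
  obtain ⟨n, a, b, ha, hb, hab⟩ := hh
  refine ⟨n, fun i => w • a i, b, fun i => S.smul_mem w (ha i), hb, fun x y => ?_⟩
  simp only [Pi.smul_apply, hab, Finset.smul_sum, smul_mul_assoc]

/-- The `Δ`-property passes from a generating set to its span. -/
theorem deltaIn_span {G : Set (C → Ω)} (hG : ∀ g ∈ G, DeltaIn (Submodule.span W G : Set _) g)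
    {h : C → Ω} (hh : h ∈ Submodule.span W G) : DeltaIn (Submodule.span W G : Set (C → Ω)) h := by
  induction hh using Submodule.span_induction with
  | mem g hg => exact hG g hg
  | zero => exact DeltaIn.zero _
  | add x y _ _ hx hy => exact hx.add hy
  | smul w x _ hx => exact hx.smul w

end Delta

/-! ### The Hopf order of an evaluation map -/

section OfEval

variable {W : Type*} [CommRing W] {Ω : Type*} [Field Ω] [Algebra W Ω] {P : ValuationSubring Ω}
  {I : Type*} [Group I] [MulSemiringAction I Ω] {C : Type*} [AddCommGroup C]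
  {act : I →* AddMonoid.End C}
  {R₀ 𝓗 : Type*} [CommRing R₀] [CommRing 𝓗] [Algebra R₀ 𝓗] [Algebra R₀ W] [Algebra R₀ Ω]
  [IsScalarTower R₀ W Ω]

/-- The `W`-subalgebra generated by the image of `ev`. -/
def evalCarrier (W : Type*) [CommRing W] [Algebra W Ω] [Algebra R₀ W] [IsScalarTower R₀ W Ω]
    (ev : 𝓗 →ₐ[R₀] (C → Ω)) : Subalgebra W (C → Ω) :=
  Algebra.adjoin W (Set.range ev)

theorem toSubmodule_evalCarrier (ev : 𝓗 →ₐ[R₀] (C → Ω)) :
    Subalgebra.toSubmodule (evalCarrier W ev) = Submodule.span W (Set.range ev) := by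
  unfold evalCarrier
  rw [Algebra.adjoin_eq_span]
  congr 1
  have : Set.range ev = ((MonoidHom.mrange (ev : 𝓗 →* (C → Ω)) : Submonoid (C → Ω)) :
      Set (C → Ω)) := by
    ext f
    simp
  rw [this, Submonoid.closure_eq]

theorem mem_evalCarrier {ev : 𝓗 →ₐ[R₀] (C → Ω)} {f : C → Ω} :
    f ∈ evalCarrier W ev ↔ f ∈ Submodule.span W (Set.range ev) := by
  rw [← toSubmodule_evalCarrier, Subalgebra.mem_toSubmodule]

theorem ev_mem_evalCarrier (ev : 𝓗 →ₐ[R₀] (C → Ω)) (h : 𝓗) : ev h ∈ evalCarrier W ev :=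
  Algebra.subset_adjoin ⟨h, rfl⟩

theorem evalCarrier_fg [Module.Finite R₀ 𝓗] (ev : 𝓗 →ₐ[R₀] (C → Ω)) :
    (Subalgebra.toSubmodule (evalCarrier W ev)).FG := by
  classical
  obtain ⟨G, hG⟩ := (Module.Finite.fg_top : (⊤ : Submodule R₀ 𝓗).FG)
  rw [toSubmodule_evalCarrier]
  refine ⟨G.image ev, le_antisymm (Submodule.span_mono ?_) (Submodule.span_le.2 ?_)⟩
  · intro f hf
    obtain ⟨g, -, rfl⟩ := Finset.mem_image.1 hf
    exact ⟨g, rfl⟩
  · rintro _ ⟨h, rfl⟩
    have hh : h ∈ Submodule.span R₀ (G : Set 𝓗) := by rw [hG]; exact Submodule.mem_top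
    induction hh using Submodule.span_induction with
    | mem g hg =>
      exact Submodule.subset_span (Finset.mem_coe.2 (Finset.mem_image_of_mem ev hg))
    | zero => rw [map_zero]; exact Submodule.zero_mem _
    | add x y _ _ hx hy => rw [map_add]; exact Submodule.add_mem _ hx hy
    | smul r x _ hx =>
      rw [map_smul, ← algebraMap_smul W r (ev x)]
      exact Submodule.smul_mem _ _ hx

/-- **O1a (a).** The Hopf order generated by the evaluation of a module-finite algebra at the points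
`C`. -/
def HopfOrder.ofEval [Module.Finite R₀ 𝓗] (ev : 𝓗 →ₐ[R₀] (C → Ω))
    (hW : ∀ w : W, algebraMap W Ω w ∈ P)
    (hfix : ∀ (τ : I) (w : W), τ • algebraMap W Ω w = algebraMap W Ω w)
    (hP : ∀ (h : 𝓗) (c : C), ev h c ∈ P)
    (heq : ∀ (h : 𝓗) (τ : I) (c : C), ev h (act τ c) = τ • ev h c)
    (hsep : ∀ c c' : C, c ≠ c' → ∃ h : 𝓗, ev h c ≠ ev h c')
    (hΔ : ∀ h : 𝓗, ∃ (n : ℕ) (a b : Fin n → 𝓗),
      ∀ x y : C, ev h (x + y) = ∑ i, ev (a i) x * ev (b i) y) :
    HopfOrder W P act where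
  carrier := evalCarrier W ev
  fg := evalCarrier_fg ev
  mem_P := by
    intro f hf c
    rw [mem_evalCarrier] at hf
    induction hf using Submodule.span_induction with
    | mem g hg => obtain ⟨h, rfl⟩ := hg; exact hP h c
    | zero => exact P.zero_mem
    | add x y _ _ hx hy => exact P.add_mem _ _ hx hy
    | smul w x _ hx =>
      rw [Pi.smul_apply, Algebra.smul_def]
      exact P.mul_mem _ _ (hW w) hx
  equivariant := by
    intro f hf τ c
    rw [mem_evalCarrier] at hf
    induction hf using Submodule.span_induction with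
    | mem g hg => obtain ⟨h, rfl⟩ := hg; exact heq h τ c
    | zero => simp
    | add x y _ _ hx hy => rw [Pi.add_apply, Pi.add_apply, hx, hy, smul_add]
    | smul w x _ hx =>
      rw [Pi.smul_apply, Pi.smul_apply, hx, Algebra.smul_def, Algebra.smul_def, smul_mul', hfix]
  separates := by
    intro c c' hcc
    obtain ⟨h, hh⟩ := hsep c c' hcc
    exact ⟨ev h, ev_mem_evalCarrier ev h, hh⟩
  comul := by
    intro f hf
    rw [mem_evalCarrier] at hf
    have key := deltaIn_span (W := W) (G := Set.range ev) ?_ hf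
    · obtain ⟨n, a, b, ha, hb, hab⟩ := key
      exact ⟨n, a, b, fun i => mem_evalCarrier.2 (ha i), fun i => mem_evalCarrier.2 (hb i), hab⟩
    · rintro _ ⟨h, rfl⟩
      obtain ⟨n, a, b, hab⟩ := hΔ h
      exact ⟨n, fun i => ev (a i), fun i => ev (b i),
        fun i => Submodule.subset_span ⟨a i, rfl⟩, fun i => Submodule.subset_span ⟨b i, rfl⟩, hab⟩

theorem HopfOrder.ofEval_carrier [Module.Finite R₀ 𝓗] (ev : 𝓗 →ₐ[R₀] (C → Ω))
    (hW : ∀ w : W, algebraMap W Ω w ∈ P)
    (hfix : ∀ (τ : I) (w : W), τ • algebraMap W Ω w = algebraMap W Ω w)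
    (hP : ∀ (h : 𝓗) (c : C), ev h c ∈ P)
    (heq : ∀ (h : 𝓗) (τ : I) (c : C), ev h (act τ c) = τ • ev h c)
    (hsep : ∀ c c' : C, c ≠ c' → ∃ h : 𝓗, ev h c ≠ ev h c')
    (hΔ : ∀ h : 𝓗, ∃ (n : ℕ) (a b : Fin n → 𝓗),
      ∀ x y : C, ev h (x + y) = ∑ i, ev (a i) x * ev (b i) y) :
    (HopfOrder.ofEval (act := act) ev hW hfix hP heq hsep hΔ).carrier = evalCarrier W ev := rfl

/-- The Hopf order of `ev` is local as soon as every point agrees with the origin modulo `𝔪_P`. -/
theorem isLocal_ofEval [Module.Finite R₀ 𝓗] (ev : 𝓗 →ₐ[R₀] (C → Ω))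
    (hW : ∀ w : W, algebraMap W Ω w ∈ P)
    (hfix : ∀ (τ : I) (w : W), τ • algebraMap W Ω w = algebraMap W Ω w)
    (hP : ∀ (h : 𝓗) (c : C), ev h c ∈ P)
    (heq : ∀ (h : 𝓗) (τ : I) (c : C), ev h (act τ c) = τ • ev h c)
    (hsep : ∀ c c' : C, c ≠ c' → ∃ h : 𝓗, ev h c ≠ ev h c')
    (hΔ : ∀ h : 𝓗, ∃ (n : ℕ) (a b : Fin n → 𝓗),
      ∀ x y : C, ev h (x + y) = ∑ i, ev (a i) x * ev (b i) y)
    (hloc : ∀ (h : 𝓗) (c : C), ev h c - ev h 0 ∈ P.nonunits) :
    (HopfOrder.ofEval (act := act) ev hW hfix hP heq hsep hΔ).IsLocal := by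
  intro f hf c
  rw [HopfOrder.ofEval_carrier, mem_evalCarrier] at hf
  have hIdeal : ∀ {a b : Ω}, a ∈ P.nonunits → b ∈ P.nonunits → a + b ∈ P.nonunits := by
    intro a b ha hb
    rw [ValuationSubring.mem_nonunits_iff] at ha hb ⊢
    exact lt_of_le_of_lt (Valuation.map_add _ _ _) (max_lt ha hb)
  induction hf using Submodule.span_induction with
  | mem g hg => obtain ⟨h, rfl⟩ := hg; exact hloc h c
  | zero =>
    simp only [Pi.zero_apply, sub_self]
    rw [ValuationSubring.mem_nonunits_iff, map_zero]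
    exact zero_lt_one
  | add x y _ _ hx hy =>
    have : (x + y) c - (x + y) 0 = (x c - x 0) + (y c - y 0) := by
      simp only [Pi.add_apply]; ring
    rw [this]
    exact hIdeal hx hy
  | smul w x _ hx =>
    have : (w • x) c - (w • x) 0 = algebraMap W Ω w * (x c - x 0) := by
      simp only [Pi.smul_apply, Algebra.smul_def]; ring
    rw [this, ValuationSubring.mem_nonunits_iff, map_mul]
    rw [ValuationSubring.mem_nonunits_iff] at hx
    have hw : P.valuation (algebraMap W Ω w) ≤ 1 := (ValuationSubring.valuation_le_one_iff P _).2 (hW w)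
    calc P.valuation (algebraMap W Ω w) * P.valuation (x c - x 0)
        ≤ 1 * P.valuation (x c - x 0) := mul_le_mul' hw le_rfl
      _ = P.valuation (x c - x 0) := one_mul _
      _ < 1 := hx

end OfEval

/-! ### The `Δ`-property from a bialgebra structure -/

section Conv

open WithConv

variable {R₀ 𝓗 Ω : Type*} [CommRing R₀] [CommRing 𝓗] [Bialgebra R₀ 𝓗] [Field Ω] [Algebra R₀ Ω]
  {C : Type*} [AddCommGroup C]

/-- If the points multiply by convolution, the evaluation map has the `Δ`-property. -/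
theorem deltaProp_of_conv (pt : C → WithConv (𝓗 →ₐ[R₀] Ω))
    (hadd : ∀ x y : C, pt (x + y) = pt x * pt y) (h : 𝓗) :
    ∃ (n : ℕ) (a b : Fin n → 𝓗), ∀ x y : C,
      (pt (x + y)).ofConv h = ∑ i, (pt x).ofConv (a i) * (pt y).ofConv (b i) := by
  classical
  obtain ⟨S, hS⟩ := TensorProduct.exists_finset (Coalgebra.comul (R := R₀) h)
  refine ⟨S.card, fun i => ((S.equivFin.symm i : S) : 𝓗 × 𝓗).1,
    fun i => ((S.equivFin.symm i : S) : 𝓗 × 𝓗).2, fun x y => ?_⟩
  rw [hadd]
  have h1 : ((pt x * pt y).ofConv) h = Algebra.TensorProduct.lift (pt x).ofConv (pt y).ofConv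
      (fun _ _ => Commute.all _ _) (Coalgebra.comul (R := R₀) h) := AlgHom.convMul_apply _ _ _
  rw [h1, hS, map_sum]
  simp only [Algebra.TensorProduct.lift_tmul]
  rw [← Finset.sum_coe_sort S (fun z => (pt x).ofConv z.1 * (pt y).ofConv z.2)]
  exact (Equiv.sum_comp S.equivFin.symm
    (fun z : S => (pt x).ofConv (z : 𝓗 × 𝓗).1 * (pt y).ofConv (z : 𝓗 × 𝓗).2)).symm

end Conv

end Fermat.Agent.S33P.HopfOrder75
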